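import Mathlib
import Fermat.Prelude.Def_FLTPrelim_FreyPackage
import Fermat.Prelude.Def_FLTPrelim_GaloisRep
import Fermat.Prelude.Def_FLTPrelim_Ramification
import Fermat.Prelude.Def_FLTPrelim_CofixedLine

/-!
# EC project (S13): shared definitions

`FreyV P` is the `p`-torsion of the Frey curve over `AlgebraicClosure ℚ`, as the exact type the
Prelude uses in `GaloisRepIsIrreducible` and `HasGaloisStableCofixedLine` (so that the Prelude's
`ZMod p`-module structure and Galois action are found by instance search).
-/

set_option autoImplicit false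
open WeierstrassCurve WeierstrassCurve.Affine WeierstrassCurve.Affine.Point

namespace Fermat.Agent.EC

/-- The `p`-torsion module of the Frey curve over `ℚ̄`, exactly the type used by the Prelude. -/
abbrev FreyV (P : FreyPackage) : Type :=
  Submodule.torsionBy ℤ ((P.freyCurve)⁄(AlgebraicClosure ℚ)).Point P.p

/-- Unfolding the Galois action on `FreyV`. -/
theorem freyV_smul_coe (P : FreyPackage)
    (σ : AlgebraicClosure ℚ ≃ₐ[ℚ] AlgebraicClosure ℚ) (x : FreyV P) :
    ((σ • x : FreyV P) : ((P.freyCurve)⁄(AlgebraicClosure ℚ)).Point)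
      = Point.map (W' := P.freyCurve) σ.toAlgHom x.1 := rfl

/-- Membership in `FreyV` in the `ℕ`-scalar form used by `Fermat.Agent.S05.frey_fixed`. -/
theorem freyV_nsmul_coe (P : FreyPackage) (x : FreyV P) :
    P.p • (x : ((P.freyCurve)⁄(AlgebraicClosure ℚ)).Point) = 0 := by
  have := x.2
  rw [Submodule.mem_torsionBy_iff] at this
  rwa [natCast_zsmul] at this

/-- Constructor for elements of `FreyV`. -/
theorem mem_freyV (P : FreyPackage) (Q : ((P.freyCurve)⁄(AlgebraicClosure ℚ)).Point)
    (hQ : P.p • Q = 0) :
    Q ∈ Submodule.torsionBy ℤ ((P.freyCurve)⁄(AlgebraicClosure ℚ)).Point P.p := by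
  rw [Submodule.mem_torsionBy_iff, natCast_zsmul]
  exact hQ

end Fermat.Agent.EC
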