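import Mathlib
import Fermat.Agent.EC.Defs
import Fermat.Agent.Lib.InertiaLift

/-!
# EC project (S13): the abstract assembly

`cofixed_of_local` derives the cofixed line from the local statements, taken as hypotheses.
-/

set_option autoImplicit false
open WeierstrassCurve WeierstrassCurve.Affine WeierstrassCurve.Affine.Point

namespace Fermat.Agent.EC

local notation "GQ" => (AlgebraicClosure ℚ ≃ₐ[ℚ] AlgebraicClosure ℚ)

/-- The Galois action commutes with `ZMod p`-scalars. -/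
theorem galois_smul_zmod (P : FreyPackage) (σ : GQ) (k : ZMod P.p) (x : FreyV P) :
    σ • (k • x) = k • (σ • x) := by
  have : NeZero P.p := ⟨P.hp0⟩
  obtain ⟨n, rfl⟩ : ∃ n : ℕ, (n : ZMod P.p) = k := ⟨k.val, ZMod.natCast_zmod_val k⟩
  rw [Nat.cast_smul_eq_nsmul, Nat.cast_smul_eq_nsmul]
  exact (DistribSMul.toAddMonoidHom (FreyV P) σ).map_nsmul n x

theorem galois_smul_sub (P : FreyPackage) (σ : GQ) (x y : FreyV P) :
    σ • (x - y) = σ • x - σ • y := smul_sub σ x y

/-- Elements acting trivially on `N`. -/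
def fixN (P : FreyPackage) (N : Submodule (ZMod P.p) (FreyV P)) : Subgroup GQ where
  carrier := {σ | ∀ x ∈ N, σ • x = x}
  one_mem' := fun x _ => one_smul _ x
  mul_mem' := by
    intro a b ha hb x hx
    rw [mul_smul, hb x hx, ha x hx]
  inv_mem' := by
    intro a ha x hx
    exact inv_smul_eq_iff.mpr (ha x hx).symm

/-- Elements acting trivially on `V / N`. -/
def cofixN (P : FreyPackage) (N : Submodule (ZMod P.p) (FreyV P))
    (hN : IsGaloisStable (K := AlgebraicClosure ℚ) ℚ N) : Subgroup GQ where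
  carrier := {σ | ∀ x : FreyV P, σ • x - x ∈ N}
  one_mem' := fun x => by
    show (1 : GQ) • x - x ∈ N
    rw [one_smul, sub_self]; exact N.zero_mem
  mul_mem' := by
    intro a b ha hb x
    show (a * b) • x - x ∈ N
    have h1 : (a * b) • x - x = a • (b • x - x) + (a • x - x) := by
      rw [mul_smul, smul_sub]; abel
    rw [h1]
    exact N.add_mem (hN a _ (hb x)) (ha x)
  inv_mem' := by
    intro a ha x
    show a⁻¹ • x - x ∈ N
    have h1 : a⁻¹ • x - x = -(a⁻¹ • (a • x - x)) := by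
      rw [smul_sub, inv_smul_smul]; abel
    rw [h1]
    exact N.neg_mem (hN a⁻¹ _ (ha x))

theorem mem_fixN (P : FreyPackage) (N : Submodule (ZMod P.p) (FreyV P)) (σ : GQ) :
    σ ∈ fixN P N ↔ ∀ x ∈ N, σ • x = x := Iff.rfl

theorem mem_cofixN (P : FreyPackage) (N : Submodule (ZMod P.p) (FreyV P))
    (hN : IsGaloisStable (K := AlgebraicClosure ℚ) ℚ N) (σ : GQ) :
    σ ∈ cofixN P N hN ↔ ∀ x : FreyV P, σ • x - x ∈ N := Iff.rfl

theorem fixN_normal (P : FreyPackage) (N : Submodule (ZMod P.p) (FreyV P))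
    (hN : IsGaloisStable (K := AlgebraicClosure ℚ) ℚ N) : (fixN P N).Normal := by
  refine ⟨fun σ hσ g x hx => ?_⟩
  rw [mul_smul, mul_smul, hσ _ (hN g⁻¹ x hx), smul_inv_smul]

theorem cofixN_normal (P : FreyPackage) (N : Submodule (ZMod P.p) (FreyV P))
    (hN : IsGaloisStable (K := AlgebraicClosure ℚ) ℚ N) : (cofixN P N hN).Normal := by
  refine ⟨fun σ hσ g x => ?_⟩
  show (g * σ * g⁻¹) • x - x ∈ N
  have h1 : (g * σ * g⁻¹) • x - x = g • (σ • (g⁻¹ • x) - g⁻¹ • x) := by
    rw [mul_smul, mul_smul, smul_sub, smul_inv_smul]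
  rw [h1]
  exact hN g _ (hσ _)

theorem fixN_isOpen (P : FreyPackage) (N : Submodule (ZMod P.p) (FreyV P))
    (hopen : IsOpen {σ : GQ | ∀ x : FreyV P, σ • x = x}) :
    IsOpen (fixN P N : Set GQ) := by
  apply Subgroup.isOpen_of_mem_nhds
  refine Filter.mem_of_superset (hopen.mem_nhds (fun x => one_smul _ x)) ?_
  intro σ hσ x _
  exact hσ x

theorem cofixN_isOpen (P : FreyPackage) (N : Submodule (ZMod P.p) (FreyV P))
    (hN : IsGaloisStable (K := AlgebraicClosure ℚ) ℚ N)
    (hopen : IsOpen {σ : GQ | ∀ x : FreyV P, σ • x = x}) :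
    IsOpen (cofixN P N hN : Set GQ) := by
  apply Subgroup.isOpen_of_mem_nhds
  refine Filter.mem_of_superset (hopen.mem_nhds (fun x => one_smul _ x)) ?_
  intro σ hσ x
  show σ • x - x ∈ N
  rw [hσ x, sub_self]; exact N.zero_mem

/-- A unipotent element stabilising a line `N` with line quotient acts trivially on `N` and on
`V / N`. -/
theorem unipotent_mem (P : FreyPackage) (N : Submodule (ZMod P.p) (FreyV P))
    (hN : IsGaloisStable (K := AlgebraicClosure ℚ) ℚ N)
    {e : FreyV P} (he : e ∈ N) (he0 : e ≠ 0)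
    (hline : ∀ y ∈ N, ∃ k : ZMod P.p, y = k • e)
    {x₀ : FreyV P} (hx₀ : x₀ ∉ N)
    (hcoline : ∀ y : FreyV P, ∃ k : ZMod P.p, y - k • x₀ ∈ N)
    (σ : GQ) (hσ : ∀ x : FreyV P, σ • (σ • x - x) = σ • x - x) :
    σ ∈ fixN P N ∧ σ ∈ cofixN P N hN := by
  have : Fact P.p.Prime := ⟨P.pp⟩
  -- `σ` fixes `e`
  have hfix_e : σ • e = e := by
    obtain ⟨c, hc⟩ := hline _ (hN σ e he)
    have h1 := hσ e
    rw [hc, smul_sub, galois_smul_zmod, hc] at h1
    have h2 : ((c - 1) ^ 2) • e = 0 := by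
      have : ((c - 1) ^ 2) • e = (c • c • e - c • e) - (c • e - e) := by
        rw [sq, mul_smul, sub_smul, sub_smul, one_smul, smul_sub, one_smul]
      rw [this, h1, sub_self]
    rcases smul_eq_zero.mp h2 with h3 | h3
    · have h4 : c = 1 := by
        have := pow_eq_zero_iff (n := 2) (by norm_num) |>.mp h3
        exact sub_eq_zero.mp this
      rw [hc, h4, one_smul]
    · exact absurd h3 he0
  have hfix : σ ∈ fixN P N := by
    intro y hy
    obtain ⟨k, rfl⟩ := hline y hy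
    rw [galois_smul_zmod, hfix_e]
  refine ⟨hfix, ?_⟩
  -- `σ x₀ - x₀ ∈ N`
  have hx₀' : σ • x₀ - x₀ ∈ N := by
    obtain ⟨c, hc⟩ := hcoline (σ • x₀)
    set m := σ • x₀ - c • x₀ with hm
    have hσx : σ • x₀ = c • x₀ + m := by rw [hm]; abel
    have hσm : σ • m = m := hfix m hc
    have h1 := hσ x₀
    have h2 : σ • (σ • x₀ - x₀) = c • (c • x₀ + m) + m - (c • x₀ + m) := by
      rw [smul_sub, hσx, smul_add, galois_smul_zmod, hσx, hσm]
    rw [h2, hσx] at h1
    have h3 : ((c - 1) ^ 2) • x₀ = (1 - c) • m := by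
      have e1 : ((c - 1) ^ 2) • x₀ = c • c • x₀ - c • x₀ - (c • x₀ - x₀) := by
        rw [sq, mul_smul, sub_smul, sub_smul, one_smul, smul_sub, one_smul]
      have e2 : (1 - c) • m = m - c • m := by rw [sub_smul, one_smul]
      rw [e1, e2]
      have h1' : c • (c • x₀ + m) + m - (c • x₀ + m) - (c • x₀ + m - x₀) = 0 := sub_eq_zero.mpr h1
      rw [smul_add] at h1'
      have : c • c • x₀ - c • x₀ - (c • x₀ - x₀) - (m - c • m)
          = c • c • x₀ + c • m + m - (c • x₀ + m) - (c • x₀ + m - x₀) := by abel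
      exact sub_eq_zero.mp (this.trans h1')
    by_cases hc1 : (c - 1) ^ 2 = 0
    · have h4 : c = 1 := sub_eq_zero.mp (pow_eq_zero_iff (n := 2) (by norm_num) |>.mp hc1)
      have : σ • x₀ - x₀ = m := by rw [hm, h4, one_smul]
      rw [this]; exact hc
    · exfalso
      apply hx₀
      have h5 : x₀ = ((c - 1) ^ 2)⁻¹ • ((1 - c) • m) := by
        rw [← h3, smul_smul, inv_mul_cancel₀ hc1, one_smul]
      rw [h5]
      exact N.smul_mem _ (N.smul_mem _ hc)
  intro x
  show σ • x - x ∈ N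
  obtain ⟨k, hk⟩ := hcoline x
  set n := x - k • x₀ with hn
  have hx : x = k • x₀ + n := by rw [hn]; abel
  have hσn : σ • n = n := hfix n hk
  have : σ • x - x = k • (σ • x₀ - x₀) := by
    rw [hx, smul_add, galois_smul_zmod, hσn, smul_sub]; abel
  rw [this]
  exact N.smul_mem _ hx₀'

/-- **Abstract assembly for S13.** -/
theorem cofixed_of_local (P : FreyPackage)
    (hopen : IsOpen {σ : GQ | ∀ x : FreyV P, σ • x = x})
    (N : Submodule (ZMod P.p) (FreyV P))
    (hN : IsGaloisStable (K := AlgebraicClosure ℚ) ℚ N)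
    {e : FreyV P} (he : e ∈ N) (he0 : e ≠ 0)
    (hline : ∀ y ∈ N, ∃ k : ZMod P.p, y = k • e)
    {x₀ : FreyV P} (hx₀ : x₀ ∉ N)
    (hcoline : ∀ y : FreyV P, ∃ k : ZMod P.p, y - k • x₀ ∈ N)
    (hodd : ∀ q : ℕ, q.Prime → q ≠ 2 → q ≠ P.p →
      ∀ A : ValuationSubring (AlgebraicClosure ℚ), A.LiesOverPrime q →
      ∀ σ ∈ A.inertiaSubgroupIn ℚ, ∀ x : FreyV P, σ • x = x)
    (htwo : ∀ A : ValuationSubring (AlgebraicClosure ℚ), A.LiesOverPrime 2 →
      ∀ σ ∈ A.inertiaSubgroupIn ℚ, ∀ x : FreyV P, σ • (σ • x - x) = σ • x - x)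
    (hp : (∀ A : ValuationSubring (AlgebraicClosure ℚ), A.LiesOverPrime P.p →
        ∀ σ ∈ A.inertiaSubgroupIn ℚ, ∀ x : FreyV P, σ • x - x ∈ N) ∨
      (∀ A : ValuationSubring (AlgebraicClosure ℚ), A.LiesOverPrime P.p →
        ∀ σ ∈ A.inertiaSubgroupIn ℚ, ∀ x ∈ N, σ • x = x))
    (hnotors : ∀ x : FreyV P, x ≠ 0 → (∀ σ : GQ, σ • x = x) → False) :
    ∀ σ : GQ, ∀ x : FreyV P, σ • x - x ∈ N := by
  have hp2 : P.p ≠ 2 := by have := P.hp5; omega
  -- inertia away from `p` lies in both subgroups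
  have haway : ∀ q : ℕ, q.Prime → q ≠ P.p →
      ∀ A : ValuationSubring (AlgebraicClosure ℚ), A.LiesOverPrime q →
      ∀ σ ∈ A.inertiaSubgroupIn ℚ, σ ∈ fixN P N ∧ σ ∈ cofixN P N hN := by
    intro q hq hqp A hA σ hσ
    by_cases hq2 : q = 2
    · subst hq2
      exact unipotent_mem P N hN he he0 hline hx₀ hcoline σ (htwo A hA σ hσ)
    · have h := hodd q hq hq2 hqp A hA σ hσ
      refine ⟨fun x _ => h x, fun x => ?_⟩
      show σ • x - x ∈ N
      rw [h x, sub_self]; exact N.zero_mem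
  rcases hp with hp | hp
  · -- all inertia is in `cofixN`
    have := cofixN_normal P N hN
    have htop : cofixN P N hN = ⊤ := by
      apply Fermat.Agent.Lib.InertiaLift.eq_top_of_inertia_le _ (cofixN_isOpen P N hN hopen)
      intro q hq A hA σ hσ
      by_cases hqp : q = P.p
      · subst hqp
        exact hp A hA σ hσ
      · exact (haway q hq hqp A hA σ hσ).2
    intro σ x
    have : σ ∈ cofixN P N hN := htop ▸ Subgroup.mem_top σ
    exact this x
  · -- all inertia is in `fixN`: contradiction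
    exfalso
    have := fixN_normal P N hN
    have htop : fixN P N = ⊤ := by
      apply Fermat.Agent.Lib.InertiaLift.eq_top_of_inertia_le _ (fixN_isOpen P N hopen)
      intro q hq A hA σ hσ
      by_cases hqp : q = P.p
      · subst hqp
        exact hp A hA σ hσ
      · exact (haway q hq hqp A hA σ hσ).1
    refine hnotors e he0 (fun σ => ?_)
    have : σ ∈ fixN P N := htop ▸ Subgroup.mem_top σ
    exact this e he

end Fermat.Agent.EC
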