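import Fermat.Agent.EC.Defs
import Fermat.Agent.Lib.ECTors.Main
import Fermat.Agent.S13.Assembly

/-!
# EC task 137 (helper13): `E[p]` of the Frey curve is finite, nonzero, of size `≤ p²`

Also exports the factorisation `preΨ_p = p ∏ (X - x)` over the `x`-coordinates of the nonzero
`p`-torsion points, valid as soon as `#E[p] = p²`.
-/

set_option autoImplicit false
open WeierstrassCurve WeierstrassCurve.Affine WeierstrassCurve.Affine.Point

namespace Fermat.Agent.EC

open Fermat.Agent.Lib.ECTors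

theorem frey_not_even (P : FreyPackage) : ¬ Even P.p := Nat.not_even_iff_odd.mpr P.hp_odd

theorem frey_p_ne_zero (P : FreyPackage) : ((P.p : ℕ) : AlgebraicClosure ℚ) ≠ 0 :=
  Nat.cast_ne_zero.mpr P.hp0

/-- The Frey curve over `ℚ̄` is nonsingular. -/
theorem frey_Δ_ne_zero (P : FreyPackage) : ((P.freyCurve)⁄(AlgebraicClosure ℚ)).Δ ≠ 0 :=
  Fermat.Agent.S13.Assembly.freyCurve_baseChange_Δ_ne_zero P

/-- The torsion criterion for the Frey curve over `ℚ̄`. -/
theorem frey_torsionCriterion (P : FreyPackage) :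
    Card.TorsionCriterion ((P.freyCurve)⁄(AlgebraicClosure ℚ)) :=
  torsionCriterion _

theorem frey_finite (P : FreyPackage) : Finite (FreyV P) :=
  finite_torsionBy_of_odd _ (frey_not_even P) (frey_p_ne_zero P)

theorem frey_card_le (P : FreyPackage) : Nat.card (FreyV P) ≤ P.p ^ 2 :=
  card_torsionBy_le_of_odd _ (frey_not_even P) (frey_p_ne_zero P)

theorem frey_nontrivial (P : FreyPackage) : Nontrivial (FreyV P) :=
  nontrivial_torsionBy_of_odd _ (frey_Δ_ne_zero P) (frey_not_even P)
    (by have := P.hp5; omega) (frey_p_ne_zero P)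

/-- A nonzero point of `E[p]` has `preΨ_p(x) = 0` (and conversely). -/
theorem frey_zsmul_eq_zero_iff (P : FreyPackage) {x y : AlgebraicClosure ℚ}
    (h : ((P.freyCurve)⁄(AlgebraicClosure ℚ)).Nonsingular x y) :
    ((P.p : ℕ) : ℤ) • Point.some x y h = 0 ↔
      (((P.freyCurve)⁄(AlgebraicClosure ℚ)).preΨ (P.p : ℤ)).eval x = 0 :=
  (frey_torsionCriterion P).odd (Card.not_even_cast_of_odd (frey_not_even P)) h

/-- If `E[p]` has a proper nonzero `𝔽_p`-subspace, then `#E[p] = p²`. -/
theorem frey_card_eq_of_proper (P : FreyPackage) (N : Submodule (ZMod P.p) (FreyV P))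
    (hbot : N ≠ ⊥) (htop : N ≠ ⊤) : Nat.card (FreyV P) = P.p ^ 2 := by
  have : Fact P.p.Prime := ⟨P.pp⟩
  have := frey_finite P
  exact (Card.card_of_proper_submodule (frey_card_le P) N hbot htop).2.1

/-- If `E[p]` has a proper nonzero `𝔽_p`-subspace, the subspace has `p` elements. -/
theorem frey_card_line (P : FreyPackage) (N : Submodule (ZMod P.p) (FreyV P))
    (hbot : N ≠ ⊥) (htop : N ≠ ⊤) : Nat.card N = P.p := by
  have : Fact P.p.Prime := ⟨P.pp⟩
  have := frey_finite P
  exact (Card.card_of_proper_submodule (frey_card_le P) N hbot htop).1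

/-- The set of `x`-coordinates of the nonzero `p`-torsion points of the Frey curve. -/
noncomputable def freyXs (P : FreyPackage) : Finset (AlgebraicClosure ℚ) :=
  Card.torsionXs ((P.freyCurve)⁄(AlgebraicClosure ℚ)) P.p

theorem mem_freyXs (P : FreyPackage) (x : AlgebraicClosure ℚ) :
    x ∈ freyXs P ↔ ∃ (y : AlgebraicClosure ℚ)
      (h : ((P.freyCurve)⁄(AlgebraicClosure ℚ)).Nonsingular x y),
      ((P.p : ℕ) : ℤ) • Point.some x y h = 0 :=
  Card.mem_torsionXs (frey_torsionCriterion P) (frey_not_even P) (frey_p_ne_zero P) x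

/-- In the reducible case, `preΨ_p = p ∏ (X - x)` over the `x`-coordinates of the nonzero
`p`-torsion points, which are `(p² - 1)/2` in number. -/
theorem frey_preΨ_eq_prod (P : FreyPackage) (N : Submodule (ZMod P.p) (FreyV P))
    (hbot : N ≠ ⊥) (htop : N ≠ ⊤) :
    (freyXs P).card = (P.p ^ 2 - 1) / 2 ∧
      ((P.freyCurve)⁄(AlgebraicClosure ℚ)).preΨ (P.p : ℤ) =
        Polynomial.C ((P.p : ℕ) : AlgebraicClosure ℚ) *
          ∏ x ∈ freyXs P, (Polynomial.X - Polynomial.C x) :=
  preΨ_eq_prod_of_card _ (frey_not_even P) (frey_p_ne_zero P) (frey_card_eq_of_proper P N hbot htop)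

end Fermat.Agent.EC
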