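/-
EC → ESJ/REP (S42): the mod-`n` Galois representation of a Weierstrass curve over `ℚ` with
finite `n`-torsion factors through a finite level, and finite levels can be packaged as a
finite Galois number field in exactly the binder shape used by the frozen statement S42.
(owner: helper51)
-/
import Mathlib
import Fermat.Agent.EC.FreyTors
import Fermat.Agent.Lib.GalQbar
import Fermat.Prelude.Def_FreyPackage_EigenformResidualAttachment
import Fermat.Prelude.Def_GaloisRep_Residual

set_option autoImplicit false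

open WeierstrassCurve WeierstrassCurve.Affine WeierstrassCurve.Affine.Point

namespace Fermat.Agent.EC.FiniteLevel

/-- Being Galois over `ℚ` does not depend on the `ℚ`-algebra instance. -/
theorem isGalois_rat_congr {F : Type*} [Field F] (i₁ i₂ : Algebra ℚ F)
    (h : @IsGalois ℚ _ F _ i₁) : @IsGalois ℚ _ F _ i₂ := by
  have : i₁ = i₂ := Subsingleton.elim _ _
  subst this; exact h

/-- Packaging a finite level as a finite Galois number field, in the binder shape of S42. -/
theorem exists_galois_numberField (L : IntermediateField ℚ (AlgebraicClosure ℚ))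
    [FiniteDimensional ℚ L] :
    ∃ (F : Type) (_ : Field F) (_ : NumberField F) (_ : IsGalois ℚ F)
      (_ : Algebra F (AlgebraicClosure ℚ)) (_ : IsScalarTower ℚ F (AlgebraicClosure ℚ)),
      ∀ σ ∈ (AlgEquiv.restrictNormalHom (F := ℚ) (K₁ := AlgebraicClosure ℚ) F).ker,
        ∀ x ∈ L, σ x = x := by
  have := Fermat.Agent.Lib.GalQbar.isGalois_rat
  have := Fermat.Agent.Lib.GalQbar.normal_rat
  have hgal : IsGalois ℚ (IntermediateField.normalClosure ℚ L (AlgebraicClosure ℚ)) :=
    isGalois_rat_congr (IntermediateField.algebra' _) _ inferInstance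
  have hfd : FiniteDimensional ℚ (IntermediateField.normalClosure ℚ L (AlgebraicClosure ℚ)) :=
    inferInstance
  refine ⟨↥(IntermediateField.normalClosure ℚ L (AlgebraicClosure ℚ)), inferInstance,
    NumberField.mk, hgal, inferInstance, inferInstance, ?_⟩
  intro σ hσ x hx
  have hx' : x ∈ IntermediateField.normalClosure ℚ L (AlgebraicClosure ℚ) :=
    IntermediateField.le_normalClosure L hx
  rw [MonoidHom.mem_ker] at hσ
  have h1 := AlgEquiv.restrictNormal_commutes σ
    (↥(IntermediateField.normalClosure ℚ L (AlgebraicClosure ℚ))) ⟨x, hx'⟩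
  rw [show σ.restrictNormal _ = AlgEquiv.restrictNormalHom _ σ from rfl, hσ] at h1
  exact h1.symm

/-- Two homomorphisms out of `G_ℚ` factoring through finite levels have a common finite Galois
level, packaged as in S42. -/
theorem exists_galois_numberField_ker_le {M₁ M₂ : Type} [MulOneClass M₁] [MulOneClass M₂]
    (ρ₁ : (AlgebraicClosure ℚ ≃ₐ[ℚ] AlgebraicClosure ℚ) →* M₁)
    (ρ₂ : (AlgebraicClosure ℚ ≃ₐ[ℚ] AlgebraicClosure ℚ) →* M₂)
    (h₁ : GaloisFactorsThroughFiniteLevel ρ₁) (h₂ : GaloisFactorsThroughFiniteLevel ρ₂) :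
    ∃ (F : Type) (_ : Field F) (_ : NumberField F) (_ : IsGalois ℚ F)
      (_ : Algebra F (AlgebraicClosure ℚ)) (_ : IsScalarTower ℚ F (AlgebraicClosure ℚ)),
      (AlgEquiv.restrictNormalHom (F := ℚ) (K₁ := AlgebraicClosure ℚ) F).ker ≤
        ρ₁.ker ⊓ ρ₂.ker := by
  obtain ⟨L₁, hL₁, hρ₁⟩ := h₁
  obtain ⟨L₂, hL₂, hρ₂⟩ := h₂
  obtain ⟨F, i1, i2, i3, i4, i5, hF⟩ := exists_galois_numberField (L₁ ⊔ L₂)
  refine ⟨F, i1, i2, i3, i4, i5, fun σ hσ => ?_⟩
  rw [Subgroup.mem_inf, MonoidHom.mem_ker, MonoidHom.mem_ker]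
  exact ⟨hρ₁ σ fun x hx => hF σ hσ x ((le_sup_left : L₁ ≤ L₁ ⊔ L₂) hx),
    hρ₂ σ fun x hx => hF σ hσ x ((le_sup_right : L₂ ≤ L₁ ⊔ L₂) hx)⟩

/-- The coordinates of a point. -/
def coords {K : Type*} [Field K] {W : Affine K} : W.Point → Set K
  | .zero => ∅
  | @Point.some _ _ _ x y _ => {x, y}

theorem coords_finite {K : Type*} [Field K] {W : Affine K} (Q : W.Point) :
    (coords Q).Finite := by
  cases Q with
  | zero => exact Set.finite_empty
  | @some x y h => exact (Set.finite_singleton y).insert x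

/-- A Galois automorphism fixing the coordinates of a point fixes the point. -/
theorem smul_eq_of_fixes_coords (W : Affine ℚ)
    (σ : AlgebraicClosure ℚ ≃ₐ[ℚ] AlgebraicClosure ℚ) (Q : (W⁄(AlgebraicClosure ℚ)).Point)
    (h : ∀ c ∈ coords Q, σ c = c) : σ • Q = Q := by
  cases Q with
  | zero => rfl
  | @some x y hxy =>
    have hx : σ x = x := h x (Set.mem_insert _ _)
    have hy : σ y = y := h y (Set.mem_insert_of_mem _ rfl)
    rw [Point.algEquiv_smul_def, Point.map_some, Point.some.injEq]
    exact ⟨hx, hy⟩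

/-- **Finite level of `E[n]`**: if the `n`-torsion of a Weierstrass curve over `ℚ` is finite,
the mod-`n` Galois representation factors through a finite extension of `ℚ`. -/
theorem galoisFactorsThroughFiniteLevel_of_finite (W : Affine ℚ) (n : ℕ)
    [Finite (Submodule.torsionBy ℤ (W⁄(AlgebraicClosure ℚ)).Point n)] :
    GaloisFactorsThroughFiniteLevel
      (galoisRepModuleEnd (S := ℚ) (K := AlgebraicClosure ℚ) W n) := by
  have halg := Fermat.Agent.Lib.GalQbar.isAlgebraic_rat
  let C : Set (AlgebraicClosure ℚ) :=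
    ⋃ Q : Submodule.torsionBy ℤ (W⁄(AlgebraicClosure ℚ)).Point n,
      coords (Q : (W⁄(AlgebraicClosure ℚ)).Point)
  have hC : C.Finite := Set.finite_iUnion fun Q => coords_finite _
  have : Finite C := hC
  refine ⟨IntermediateField.adjoin ℚ C,
    IntermediateField.finiteDimensional_adjoin fun x _ =>
      (Algebra.IsAlgebraic.isAlgebraic x).isIntegral, fun σ hσ => ?_⟩
  refine LinearMap.ext fun Q => Subtype.ext ?_
  rw [galoisRepModuleEnd_apply]
  change σ • (Q : (W⁄(AlgebraicClosure ℚ)).Point) = Q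
  refine smul_eq_of_fixes_coords W σ _ fun c hc => hσ c ?_
  exact IntermediateField.subset_adjoin ℚ C (Set.mem_iUnion.mpr ⟨Q, hc⟩)

/-- The mod-`p` representation of the Frey curve factors through a finite level. -/
theorem frey_finiteLevel (P : FreyPackage) :
    GaloisFactorsThroughFiniteLevel
      (galoisRepModuleEnd (S := ℚ) (K := AlgebraicClosure ℚ) P.freyCurve P.p) := by
  have : Finite (Submodule.torsionBy ℤ ((P.freyCurve)⁄(AlgebraicClosure ℚ)).Point P.p) :=
    frey_finite P
  exact galoisFactorsThroughFiniteLevel_of_finite P.freyCurve P.p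

/-- **The level clause of S42**: for any homomorphism `ρ` out of `G_ℚ` factoring through a
finite level, there is a finite Galois number field `F ⊆ ℚ̄` (in the binder shape of the frozen
statement S42) such that `Gal(ℚ̄/F)` acts trivially on `E[p]` of the Frey curve and on `ρ`. -/
theorem frey_exists_level (P : FreyPackage) {M : Type} [MulOneClass M]
    (ρ : (AlgebraicClosure ℚ ≃ₐ[ℚ] AlgebraicClosure ℚ) →* M)
    (hρ : GaloisFactorsThroughFiniteLevel ρ) :
    ∃ (F : Type) (_ : Field F) (_ : NumberField F) (_ : IsGalois ℚ F)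
      (_ : Algebra F (AlgebraicClosure ℚ)) (_ : IsScalarTower ℚ F (AlgebraicClosure ℚ)),
      (AlgEquiv.restrictNormalHom (F := ℚ) (K₁ := AlgebraicClosure ℚ) F).ker ≤
        (galoisRepModuleEnd (S := ℚ) (K := AlgebraicClosure ℚ) P.freyCurve P.p).ker ⊓ ρ.ker :=
  exists_galois_numberField_ker_le _ ρ (frey_finiteLevel P) hρ

end Fermat.Agent.EC.FiniteLevel
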