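import Mathlib
import Fermat.Agent.EC.Defs
import Fermat.Agent.Lib.FrobeniusExists
import Fermat.Agent.Lib.Frey.Semistable
import Fermat.Agent.S05.Inertia

/-!
# EC (S13), task EC-L2-R4: the `2`-adic valuation of `a₄` of the Frey curve
-/

set_option autoImplicit false

namespace Fermat.Agent.EC

open Fermat.Agent.Lib.FrobeniusExists

/-- `a` is odd in a Frey package. -/
theorem frey_a_odd (P : FreyPackage) : ¬ (2 : ℤ) ∣ P.a := by
  intro h
  obtain ⟨k, hk⟩ := h
  have h4 := P.ha4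
  rw [hk] at h4
  have h2 : ((2 * k : ℤ) : ZMod 4) * 2 = 3 * 2 := by rw [h4]
  have h3 : ((2 * k : ℤ) : ZMod 4) * 2 = 0 := by
    push_cast
    have : (2 : ZMod 4) * (k : ZMod 4) * 2 = 4 * (k : ZMod 4) := by ring
    rw [this]
    have h40 : (4 : ZMod 4) = 0 := by decide
    rw [h40, zero_mul]
  rw [h3] at h2
  revert h2
  decide

/-- The valuation of `a₄` of the Frey curve at a valuation subring over `2` is `(v 2)^n` with
`n > 0` and `p ∤ 2n`. -/
theorem frey_a₄_val_two (P : FreyPackage) (A : ValuationSubring (AlgebraicClosure ℚ))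
    (hA : A.LiesOverPrime 2) :
    ∃ n : ℤ, 0 < n ∧ ¬ ((P.p : ℤ) ∣ 2 * n) ∧
      A.valuation (algebraMap ℚ (AlgebraicClosure ℚ) P.freyCurve.a₄) =
        A.valuation (2 : AlgebraicClosure ℚ) ^ n := by
  have h2lt : A.valuation ((2 : ℕ) : AlgebraicClosure ℚ) < 1 := (A.mem_nonunits_iff).mp hA
  have h2ne : A.valuation (2 : AlgebraicClosure ℚ) ≠ 0 := by
    rw [Valuation.ne_zero_iff]
    norm_num
  -- `b = ± 2^e * b'` with `b'` odd
  obtain ⟨e, b', hb', hbe⟩ := Nat.exists_eq_pow_mul_and_not_dvd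
    (n := P.b.natAbs) (Int.natAbs_ne_zero.mpr P.hb0) 2 (by norm_num)
  have he : e ≠ 0 := by
    rintro rfl
    rw [pow_zero, one_mul] at hbe
    apply hb'
    rw [← hbe]
    have h := Fermat.Agent.Frey.two_dvd_b P
    have h' := Int.natAbs_dvd_natAbs.mpr h
    simpa using h'
  have hvb' : A.valuation ((b' : ℕ) : AlgebraicClosure ℚ) = 1 := by
    have h := val_intCast_eq_one A.valuation Nat.prime_two h2lt (n := (b' : ℤ))
      (by exact_mod_cast hb')
    rwa [Int.cast_natCast] at h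
  have hvb : A.valuation ((P.b : ℤ) : AlgebraicClosure ℚ) =
      A.valuation (2 : AlgebraicClosure ℚ) ^ e := by
    have h1 : A.valuation ((P.b : ℤ) : AlgebraicClosure ℚ) =
        A.valuation ((P.b.natAbs : ℕ) : AlgebraicClosure ℚ) := by
      rcases Int.natAbs_eq P.b with h | h
      · conv_lhs => rw [h]
        rw [Int.cast_natCast]
      · conv_lhs => rw [h]
        rw [Int.cast_neg, Valuation.map_neg, Int.cast_natCast]
    rw [h1, hbe, Nat.cast_mul, Nat.cast_pow, map_mul, map_pow, hvb', mul_one, Nat.cast_ofNat]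
  have hva : A.valuation ((P.a : ℤ) : AlgebraicClosure ℚ) = 1 :=
    val_intCast_eq_one A.valuation Nat.prime_two h2lt (by exact_mod_cast frey_a_odd P)
  have hp5 := P.hp5
  have he1 : 1 ≤ e := Nat.one_le_iff_ne_zero.mpr he
  refine ⟨(e : ℤ) * (P.p : ℤ) - 4, ?_, ?_, ?_⟩
  · have h1 : (5 : ℤ) ≤ (e : ℤ) * (P.p : ℤ) := by
      have : (1 : ℤ) * 5 ≤ (e : ℤ) * (P.p : ℤ) :=
        mul_le_mul (by exact_mod_cast he1) (by exact_mod_cast hp5) (by norm_num) (by positivity)
      linarith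
    linarith
  · rintro ⟨k, hk⟩
    have h8 : (P.p : ℤ) ∣ 8 := ⟨2 * e - k, by linarith⟩
    have h8' : P.p ∣ 8 := by exact_mod_cast h8
    have hle : P.p ≤ 8 := Nat.le_of_dvd (by norm_num) h8'
    have hpp := P.pp
    interval_cases P.p <;> simp_all (config := { decide := true })
  · have ha4 : (algebraMap ℚ (AlgebraicClosure ℚ) P.freyCurve.a₄) =
        -(((P.a : ℤ) : AlgebraicClosure ℚ) ^ P.p) * ((P.b : ℤ) : AlgebraicClosure ℚ) ^ P.p /
          (2 : AlgebraicClosure ℚ) ^ 4 := by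
      rw [eq_ratCast]
      show ((-((P.a : ℚ) ^ P.p) * ((P.b : ℚ) ^ P.p) / 16 : ℚ) : AlgebraicClosure ℚ) = _
      push_cast
      norm_num
    rw [ha4, map_div₀, map_mul, Valuation.map_neg, map_pow, map_pow, map_pow, hva, hvb, one_pow,
      one_mul, ← pow_mul, zpow_sub₀ h2ne, ← Nat.cast_mul, zpow_natCast]
    norm_num

end Fermat.Agent.EC
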