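/-
EC project (S13), task 139: the Frey curve at the prime 2.

* `frey_inertia_two`: for `σ` in an inertia group at 2, `(σ - 1)² = 0` on `E[p]`.
* `frey_no_rational_torsion`: `E[p]` has no nonzero point fixed by the whole Galois group.

Both are instantiations of the abstract local theory of the nodal normal form
(`Fermat/Agent/EC/NF/*`): the Frey curve `y² + xy = x³ + a₂x² + a₄x` has `a₂ ∈ ℤ`,
`a₄ = ± odd · 2^N` with `N = p·v₂(b) - 4 > 0` prime to `p`.
-/
import Fermat.Agent.EC.Defs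
import Fermat.Agent.EC.NF.ClsHom
import Fermat.Agent.EC.NF.NoTors2
import Fermat.Agent.EC.NF.NoTors
import Fermat.Agent.EC.NF.TwoAdic
import Fermat.Agent.S05.Assemble
import Fermat.Agent.S05.Inertia
import Fermat.Agent.Lib.FrobeniusExists
import Fermat.Agent.Lib.GalQbar
import Fermat.Agent.Lib.Frey.Semistable

set_option autoImplicit false

open WeierstrassCurve WeierstrassCurve.Affine WeierstrassCurve.Affine.Point

namespace Fermat.Agent.EC

namespace FreyLoc2

open Fermat.Agent.EC.NF Fermat.Agent.EC.NF.Local2 Fermat.Agent.S51.Doubling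

local notation "Qb" => AlgebraicClosure ℚ

/-! ### The coefficients of the Frey curve -/

theorem frey_a₁ (P : FreyPackage) : P.freyCurve.a₁ = 1 := rfl
theorem frey_a₃ (P : FreyPackage) : P.freyCurve.a₃ = 0 := rfl
theorem frey_a₆ (P : FreyPackage) : P.freyCurve.a₆ = 0 := rfl

theorem frey_a₂ (P : FreyPackage) : P.freyCurve.a₂ = ((P.freyCurveInt.a₂ : ℤ) : ℚ) := by
  have h := congrArg WeierstrassCurve.a₂ (Fermat.Agent.Frey.freyCurveInt_map P)
  rw [← h]
  simp

theorem frey_a₄ (P : FreyPackage) : P.freyCurve.a₄ = ((P.freyCurveInt.a₄ : ℤ) : ℚ) := by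
  have h := congrArg WeierstrassCurve.a₄ (Fermat.Agent.Frey.freyCurveInt_map P)
  rw [← h]
  simp

theorem algebraMap_frey_a₂ (P : FreyPackage) :
    algebraMap ℚ Qb P.freyCurve.a₂ = ((P.freyCurveInt.a₂ : ℤ) : Qb) := by
  rw [frey_a₂, map_intCast]

theorem algebraMap_frey_a₄ (P : FreyPackage) :
    algebraMap ℚ Qb P.freyCurve.a₄ = ((P.freyCurveInt.a₄ : ℤ) : Qb) := by
  rw [frey_a₄, map_intCast]

theorem frey_a₄_ne_zero (P : FreyPackage) : P.freyCurve.a₄ ≠ 0 := by
  rw [frey_a₄]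
  have h := Fermat.Agent.Frey.sixteen_mul_a₄ P
  have h0 : P.freyCurveInt.a₄ ≠ 0 := by
    intro h0
    rw [h0, mul_zero] at h
    have ha := pow_ne_zero P.p P.ha0
    have hb := pow_ne_zero P.p P.hb0
    have : -(P.a ^ P.p) * P.b ^ P.p ≠ 0 := mul_ne_zero (neg_ne_zero.mpr ha) hb
    exact this h.symm
  exact_mod_cast h0

/-! ### Valuations at 2 -/

section Val

variable (A : ValuationSubring Qb)

theorem val_two_lt_one (hA : A.LiesOverPrime 2) : A.valuation (2 : Qb) < 1 := by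
  have : ((2 : ℕ) : Qb) ∈ A.nonunits := hA
  rw [ValuationSubring.mem_nonunits_iff] at this
  exact_mod_cast this

theorem val_natCast_two_lt_one (hA : A.LiesOverPrime 2) : A.valuation ((2 : ℕ) : Qb) < 1 := by
  have : ((2 : ℕ) : Qb) ∈ A.nonunits := hA
  rwa [ValuationSubring.mem_nonunits_iff] at this

theorem val_int_odd (hA : A.LiesOverPrime 2) {n : ℤ} (hn : ¬ (2 : ℤ) ∣ n) : A.valuation (n : Qb) = 1 :=
  Fermat.Agent.S05.val_intCast_eq_one A Nat.prime_two (val_natCast_two_lt_one A hA)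
    (by exact_mod_cast hn)

theorem val_int_even (hA : A.LiesOverPrime 2) {n : ℤ} (hn : (2 : ℤ) ∣ n) : A.valuation (n : Qb) < 1 :=
  Fermat.Agent.S05.val_intCast_lt_one A (val_natCast_two_lt_one A hA) (by exact_mod_cast hn)

/-- `v(a₂) ≤ 1`. -/
theorem val_frey_a₂ (P : FreyPackage) : A.valuation (algebraMap ℚ Qb P.freyCurve.a₂) ≤ 1 := by
  rw [algebraMap_frey_a₂]
  exact Fermat.Agent.S05.val_intCast_le_one A _

/-- A root of `β² + β = c`, `c ∈ ℤ`, is integral. -/
theorem val_root_le_one {c : ℤ} {β : Qb} (hβ : β ^ 2 + β = (c : Qb)) : A.valuation β ≤ 1 := by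
  by_contra hcon
  have hβ1 : 1 < A.valuation β := not_le.mp hcon
  have h2 : A.valuation β < A.valuation β ^ 2 := by
    have := pow_lt_pow_right₀ hβ1 (by norm_num : 1 < 2)
    rwa [pow_one] at this
  have h3 : A.valuation (β ^ 2 + β) = A.valuation β ^ 2 := by
    rw [Valuation.map_add_eq_of_lt_left _ (by rw [map_pow]; exact h2), map_pow]
  rw [hβ] at h3
  have h4 := Fermat.Agent.S05.val_intCast_le_one A c
  rw [h3] at h4
  exact absurd (lt_trans hβ1 h2) (not_lt.mpr h4)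

/-- `v(2β + 1) = 1` for an integral `β`. -/
theorem val_two_mul_add_one (hA : A.LiesOverPrime 2) {β : Qb} (hβ : A.valuation β ≤ 1) :
    A.valuation (2 * β + 1) = 1 := by
  have h : A.valuation (2 * β) < 1 := by
    rw [map_mul]
    calc A.valuation 2 * A.valuation β ≤ A.valuation 2 * 1 := by gcongr
      _ = A.valuation 2 := mul_one _
      _ < 1 := val_two_lt_one A hA
  rw [Valuation.map_add_eq_of_lt_right _ (by rw [map_one]; exact h), map_one]

/-- Inertia at 2 fixes the roots of `T² + T - c`. -/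
theorem inertia_fixes_root (hA : A.LiesOverPrime 2) (σ : Qb ≃ₐ[ℚ] Qb) (hσ : σ ∈ A.inertiaSubgroupIn ℚ) {c : ℤ} {β : Qb}
    (hβ : β ^ 2 + β = (c : Qb)) : σ β = β := by
  have hβ1 := val_root_le_one A hβ
  have hσβ : σ β ^ 2 + σ β = (c : Qb) := by
    have := congrArg σ hβ
    rwa [map_add, map_pow, map_intCast] at this
  have hprod : (σ β - β) * (σ β + β + 1) = 0 := by linear_combination hσβ - hβ
  rcases mul_eq_zero.mp hprod with h | h
  · exact sub_eq_zero.mp h
  · exfalso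
    have h1 := Fermat.Agent.S05.inertia_spec A σ hσ β hβ1
    have e : σ β - β = -(2 * β + 1) := by linear_combination h
    rw [e, Valuation.map_neg, val_two_mul_add_one A hA hβ1] at h1
    exact lt_irrefl _ h1

/-- Inertia preserves the valuation. -/
theorem inertia_val_eq (σ : Qb ≃ₐ[ℚ] Qb) (hσ : σ ∈ A.inertiaSubgroupIn ℚ) (x : Qb) :
    A.valuation (σ x) = A.valuation x := by
  have := Fermat.Agent.Lib.GalQbar.isAlgebraic_rat
  exact val_map_eq A.valuation σ (Fermat.Agent.S05.Inertia.map_lt_one A σ hσ)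
    (Fermat.Agent.S05.Inertia.map_lt_one A σ.symm (Fermat.Agent.S05.Inertia.symm_mem A σ hσ)) x

end Val

/-- Existence of a root of `β² + β = c` in `ℚ̄`. -/
theorem exists_root (c : Qb) : ∃ β : Qb, β ^ 2 + β = c := by
  obtain ⟨s, hs⟩ := IsAlgClosed.exists_pow_nat_eq (1 + 4 * c) (n := 2) (by norm_num)
  refine ⟨(s - 1) / 2, ?_⟩
  field_simp
  linear_combination hs

/-! ### The Frey curve over `ℚ̄` at a place over 2 -/

section Frey

variable (P : FreyPackage) (A : ValuationSubring Qb)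

theorem val_frey_a₄_lt_one (hA : A.LiesOverPrime 2) :
    A.valuation (algebraMap ℚ Qb P.freyCurve.a₄) < 1 := by
  obtain ⟨N, hN0, -, hN⟩ := TwoAdic.frey_val_a₄ P A hA
  obtain ⟨n, rfl⟩ := Int.eq_ofNat_of_zero_le hN0.le
  rw [hN, zpow_natCast]
  exact pow_lt_one₀ zero_le (val_two_lt_one A hA) (by omega)

theorem frey_isIntegralModel (hA : A.LiesOverPrime 2) :
    IsIntegralModel A.valuation (P.freyCurve⁄Qb) := by
  refine ⟨?_, ?_, ?_, ?_, ?_⟩
  · show A.valuation (algebraMap ℚ Qb P.freyCurve.a₁) ≤ 1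
    rw [frey_a₁, map_one, map_one]
  · exact val_frey_a₂ A P
  · show A.valuation (algebraMap ℚ Qb P.freyCurve.a₃) ≤ 1
    rw [frey_a₃, _root_.map_zero, _root_.map_zero]
    exact zero_le_one
  · exact (val_frey_a₄_lt_one P A hA).le
  · show A.valuation (algebraMap ℚ Qb P.freyCurve.a₆) ≤ 1
    rw [frey_a₆, _root_.map_zero, _root_.map_zero]
    exact zero_le_one

theorem frey_a₃_bc : (P.freyCurve⁄Qb).a₃ = 0 := by
  show algebraMap ℚ Qb P.freyCurve.a₃ = 0
  rw [frey_a₃, _root_.map_zero]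

theorem frey_a₆_bc : (P.freyCurve⁄Qb).a₆ = 0 := by
  show algebraMap ℚ Qb P.freyCurve.a₆ = 0
  rw [frey_a₆, _root_.map_zero]

theorem frey_a₁_bc : (P.freyCurve⁄Qb).a₁ = 1 := by
  show algebraMap ℚ Qb P.freyCurve.a₁ = 1
  rw [frey_a₁, map_one]

theorem frey_root_bc {β : Qb} (hβ : β ^ 2 + β = ((P.freyCurveInt.a₂ : ℤ) : Qb)) :
    β ^ 2 + (P.freyCurve⁄Qb).a₁ * β = (P.freyCurve⁄Qb).a₂ := by
  rw [frey_a₁_bc, one_mul, hβ]
  exact (algebraMap_frey_a₂ P).symm

/-- Additivity of the class function on the normal form of the Frey curve at 2. -/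
theorem frey_clsAdd (hA : A.LiesOverPrime 2) {β : Qb}
    (hβ : β ^ 2 + β = ((P.freyCurveInt.a₂ : ℤ) : Qb)) :
    ClsAdd A.valuation (nfCurve (P.freyCurve⁄Qb) β) := by
  intro R S
  refine Fermat.Agent.EC.NF.cls_add A.valuation (isNF_nfCurve _ β) ?_ ?_ ?_ R S
  · show A.valuation (2 * β + (P.freyCurve⁄Qb).a₁) = 1
    rw [frey_a₁_bc]
    exact val_two_mul_add_one A hA (val_root_le_one A hβ)
  · exact val_frey_a₄_lt_one P A hA
  · show algebraMap ℚ Qb P.freyCurve.a₄ ≠ 0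
    exact (map_ne_zero _).mpr (frey_a₄_ne_zero P)

end Frey

end FreyLoc2

open FreyLoc2 Fermat.Agent.EC.NF Fermat.Agent.EC.NF.Local2 in
/-- **Inertia at 2 acts unipotently on `E[p]`**: `(σ - 1)² = 0`. -/
theorem frey_inertia_two (P : FreyPackage) (A : ValuationSubring (AlgebraicClosure ℚ))
    (hA : A.LiesOverPrime 2) (σ : AlgebraicClosure ℚ ≃ₐ[ℚ] AlgebraicClosure ℚ)
    (hσ : σ ∈ A.inertiaSubgroupIn ℚ) (x : FreyV P) : σ • (σ • x - x) = σ • x - x := by
  obtain ⟨β, hβ⟩ := FreyLoc2.exists_root ((P.freyCurveInt.a₂ : ℤ) : AlgebraicClosure ℚ)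
  have hβ' : β ^ 2 + algebraMap ℚ (AlgebraicClosure ℚ) P.freyCurve.a₁ * β =
      algebraMap ℚ (AlgebraicClosure ℚ) P.freyCurve.a₂ := frey_root_bc P hβ
  have key := map_sub_fixed A.valuation P.freyCurve (frey_a₃ P) (frey_a₆ P) σ
    (inertia_val_eq A σ hσ) (fun z hz => Fermat.Agent.S05.inertia_spec A σ hσ z hz)
    (val_two_lt_one A hA) (by rw [frey_a₁, map_one, map_one]) (val_frey_a₂ A P)
    (val_frey_a₄_lt_one P A hA) (frey_a₄_ne_zero P) hβ' (inertia_fixes_root A hA σ hσ hβ)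
    (frey_clsAdd P A hA hβ) P.hp_odd x.1 (freyV_nsmul_coe P x)
  apply Subtype.ext
  exact key

namespace FreyLoc2

local notation "Qb" => AlgebraicClosure ℚ

open Fermat.Agent.EC.NF Fermat.Agent.EC.NF.Local2 Fermat.Agent.S51.Doubling in
/-- A nonzero `p`-torsion point fixed by the whole Galois group reduces, at a place over 2, to
`(1, 0)` or `(1, 1)`. -/
theorem fixed_point_good (P : FreyPackage) (A : ValuationSubring Qb) (hA : A.LiesOverPrime 2)
    (R : (P.freyCurve⁄Qb).Point) (hR0 : R ≠ 0) (hpR : P.p • R = 0)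
    (hfix : ∀ σ : Qb ≃ₐ[ℚ] Qb, Point.map (W' := P.freyCurve) σ.toAlgHom R = R) :
    ∃ (X Y : Qb) (h : (P.freyCurve⁄Qb).Nonsingular X Y), R = Point.some X Y h ∧
      A.valuation (X - 1) < 1 ∧ (A.valuation Y < 1 ∨ A.valuation (Y - 1) < 1) := by
  rcases R with _ | ⟨X, Y, h⟩
  · exact absurd rfl hR0
  -- the coordinates are rational
  have hXY : ∀ σ : Qb ≃ₐ[ℚ] Qb, σ X = X ∧ σ Y = Y := by
    intro σ
    have h' : (P.freyCurve⁄Qb).Nonsingular (σ X) (σ Y) :=
      (baseChange_nonsingular (W := P.freyCurve) σ.toAlgHom.injective X Y).mpr h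
    have e : Point.map (W' := P.freyCurve) σ.toAlgHom (Point.some X Y h) =
        Point.some (σ X) (σ Y) h' := rfl
    have := hfix σ
    rw [e] at this
    simpa using this
  obtain ⟨r, hr⟩ := Fermat.Agent.Lib.GalQbar.exists_rat_of_fixed X (fun σ => (hXY σ).1)
  obtain ⟨s, hs⟩ := Fermat.Agent.Lib.GalQbar.exists_rat_of_fixed Y (fun σ => (hXY σ).2)
  -- the class is one
  obtain ⟨β, hβ⟩ := FreyLoc2.exists_root ((P.freyCurveInt.a₂ : ℤ) : Qb)
  have hβ' := frey_root_bc P hβ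
  have hint := frey_isIntegralModel P A hA
  have h2 := val_two_lt_one A hA
  have h20 : 0 < A.valuation (2 : Qb) := by
    rw [Valuation.pos_iff]; exact two_ne_zero
  obtain ⟨N, -, hcop, hN⟩ := TwoAdic.frey_val_a₄ P A hA
  have hbN : A.valuation (nfCurve (P.freyCurve⁄Qb) β).a₄ < 1 := val_frey_a₄_lt_one P A hA
  have hb0N : (nfCurve (P.freyCurve⁄Qb) β).a₄ ≠ 0 := by
    show algebraMap ℚ Qb P.freyCurve.a₄ ≠ 0
    exact (map_ne_zero _).mpr (frey_a₄_ne_zero P)
  have hNN : A.valuation (nfCurve (P.freyCurve⁄Qb) β).a₄ = A.valuation (2 : Qb) ^ N := hN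
  obtain ⟨h₁, e₁⟩ := toNF_some (frey_a₃_bc P) (frey_a₆_bc P) hβ' h
  have hcls : ∃ m' : ℤ, cls A.valuation
      (toNF (frey_a₃_bc P) (frey_a₆_bc P) hβ' (Point.some X Y h)) = A.valuation (2 : Qb) ^ m' := by
    rw [e₁]
    refine exists_cls_eq_zpow A.valuation h20.ne' hNN h₁ (fun hX0 => ?_)
    rw [← hr]
    refine TwoAdic.val_rat_eq_zpow A hA r ?_
    rintro rfl
    exact hX0 (by rw [← hr, _root_.map_zero])
  obtain ⟨m', hm'⟩ := hcls
  have hc1 := cls_eq_one_of_torsion A.valuation (frey_clsAdd P A hA hβ) hb0N hbN h20 h2 hNN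
    (P := toNF (frey_a₃_bc P) (frey_a₆_bc P) hβ' (Point.some X Y h)) (n := P.p)
    (by rw [← map_nsmul, hpR, _root_.map_zero]) hcop hm'
  rw [e₁] at hc1
  have hx1 : 1 ≤ A.valuation X := one_le_of_cls_eq_one A.valuation hbN h₁ hc1
  have hxle : A.valuation X ≤ 1 := by
    by_contra hlt
    exact no_odd_torsion_of_one_lt hint h2 hR0 (not_le.mp hlt) P.hp_odd hpR
  have hy : A.valuation Y ≤ 1 := val_y_le_one hint h.1 hxle
  refine ⟨X, Y, h, rfl, ?_, ?_⟩
  · rcases TwoAdic.val_rat_dichotomy A hA r (by rw [hr]; exact hxle) with h' | h'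
    · rw [hr] at h'
      exact absurd hx1 (not_le.mpr h')
    · rwa [hr] at h'
  · rcases TwoAdic.val_rat_dichotomy A hA s (by rw [hs]; exact hy) with h' | h'
    · left; rwa [hs] at h'
    · right; rwa [hs] at h'

end FreyLoc2

open FreyLoc2 Fermat.Agent.EC.NF in
/-- **No rational `p`-torsion**: a nonzero element of `E[p]` is moved by some element of the
Galois group. -/
theorem frey_no_rational_torsion (P : FreyPackage) (x : FreyV P) (hx : x ≠ 0)
    (hfix : ∀ σ : AlgebraicClosure ℚ ≃ₐ[ℚ] AlgebraicClosure ℚ, σ • x = x) : False := by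
  obtain ⟨A, hA⟩ := Fermat.Agent.Lib.FrobeniusExists.exists_liesOverPrime Nat.prime_two
  obtain ⟨Q, hQdef⟩ : ∃ Q : ((P.freyCurve)⁄(AlgebraicClosure ℚ)).Point, Q = x.1 := ⟨_, rfl⟩
  have hQ0 : Q ≠ 0 := by
    intro h0
    apply hx
    apply Subtype.ext
    rw [← hQdef, h0]
    rfl
  have hpQ : P.p • Q = 0 := by rw [hQdef]; exact freyV_nsmul_coe P x
  have hfixQ : ∀ σ : AlgebraicClosure ℚ ≃ₐ[ℚ] AlgebraicClosure ℚ,
      Point.map (W' := P.freyCurve) σ.toAlgHom Q = Q := by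
    intro σ
    rw [hQdef]
    exact congrArg Subtype.val (hfix σ)
  have h5 := P.hp5
  have : Fact P.p.Prime := ⟨P.pp⟩
  have hord : addOrderOf Q = P.p := addOrderOf_eq_prime hpQ hQ0
  have hk : ∀ k : ℕ, 0 < k → k < P.p → k • Q ≠ 0 := by
    intro k hk0 hkp h0
    have := addOrderOf_dvd_of_nsmul_eq_zero h0
    rw [hord] at this
    exact absurd (Nat.le_of_dvd hk0 this) (not_le.mpr hkp)
  have hpk : ∀ k : ℕ, P.p • (k • Q) = 0 := by
    intro k
    rw [smul_comm, hpQ, nsmul_zero]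
  have hfixk : ∀ (k : ℕ) (σ : AlgebraicClosure ℚ ≃ₐ[ℚ] AlgebraicClosure ℚ),
      Point.map (W' := P.freyCurve) σ.toAlgHom (k • Q) = k • Q := by
    intro k σ
    rw [map_nsmul, hfixQ]
  obtain ⟨X₁, Y₁, h₁, e₁, hx₁, hy₁⟩ := fixed_point_good P A hA Q hQ0 hpQ hfixQ
  obtain ⟨X₂, Y₂, h₂, e₂, hx₂, hy₂⟩ :=
    fixed_point_good P A hA (2 • Q) (hk 2 (by omega) (by omega)) (hpk 2) (hfixk 2)
  obtain ⟨X₃, Y₃, h₃, e₃, hx₃, hy₃⟩ :=
    fixed_point_good P A hA (3 • Q) (hk 3 (by omega) (by omega)) (hpk 3) (hfixk 3)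
  have hint := frey_isIntegralModel P A hA
  have ha₁ : A.valuation ((P.freyCurve)⁄(AlgebraicClosure ℚ)).a₁ = 1 := by
    rw [frey_a₁_bc, map_one]
  have ha₃ : A.valuation ((P.freyCurve)⁄(AlgebraicClosure ℚ)).a₃ < 1 := by
    rw [frey_a₃_bc, _root_.map_zero]
    exact zero_lt_one
  refine false_of_three_points hint (val_two_lt_one A hA) ha₁ ha₃ h₁ h₂ h₃ ?_ ?_ ?_
    hx₁ hx₂ hx₃ hy₁ hy₂ hy₃ P.hp_odd ?_ ?_ ?_
  · rw [← e₁, ← e₂]
    intro h
    apply hQ0
    have : Q + 0 = Q + Q := by rw [add_zero, ← two_nsmul]; exact h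
    exact (add_left_cancel this).symm
  · rw [← e₁, ← e₃]
    intro h
    apply hk 2 (by omega) (by omega)
    have : Q + 0 = Q + 2 • Q := by
      rw [add_zero]
      have e : (3 : ℕ) • Q = Q + 2 • Q := by
        rw [show (3 : ℕ) = 1 + 2 from rfl, add_nsmul, one_nsmul]
      rw [← e]; exact h
    exact (add_left_cancel this).symm
  · rw [← e₂, ← e₃]
    intro h
    apply hQ0
    have : 2 • Q + 0 = 2 • Q + Q := by
      rw [add_zero]
      have e : (3 : ℕ) • Q = 2 • Q + Q := by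
        rw [show (3 : ℕ) = 2 + 1 from rfl, add_nsmul, one_nsmul]
      rw [← e]; exact h
    exact (add_left_cancel this).symm
  · rw [← e₁]; exact hpQ
  · rw [← e₂]; exact hpk 2
  · rw [← e₃]; exact hpk 3

end Fermat.Agent.EC
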