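import Fermat.Agent.EC.Defs
import Fermat.Agent.Lib.ECTors.Main
import Fermat.Agent.S13.LocP.Frey

/-!
# EC task 140 (helper5): the local dichotomy at `p` for a Galois-stable line of the Frey curve

For a Galois-stable line `N ⊆ V = E[p]`: either every inertia element `σ` above `p` satisfies
`(σ - 1) V ⊆ N`, or every inertia element above `p` fixes `N` pointwise; the alternative is
uniform over all valuation subrings of `AlgebraicClosure ℚ` above `p`.

Proof (files `Fermat/Agent/S13/LocP/*`): pass to an integral Legendre model `W₀`; `(1 - σ) V`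
lies in the kernel of reduction `E1(A)` (S05 local theorems without `v p = 1`); the product `t`
of the `x`-coordinates of `N ∖ 0` is a rational number.  If `p` divides the denominator of `t`
then, since `preΨ_p = p ∏ (X - x)` has integral coefficients, a Gauss-lemma count gives
`V ∩ E1(A) = N` for every `A ∣ p`; otherwise `N ∩ E1(A) = 0` for every `A ∣ p`.
-/

set_option autoImplicit false
open WeierstrassCurve WeierstrassCurve.Affine WeierstrassCurve.Affine.Point

namespace Fermat.Agent.EC

open Fermat.Agent.Lib.ECTors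

theorem frey_inertia_p (P : FreyPackage) (N : Submodule (ZMod P.p) (FreyV P))
    (hN : IsGaloisStable (K := AlgebraicClosure ℚ) ℚ N) (hbot : N ≠ ⊥) (htop : N ≠ ⊤) :
    (∀ A : ValuationSubring (AlgebraicClosure ℚ), A.LiesOverPrime P.p →
      ∀ σ ∈ A.inertiaSubgroupIn ℚ, ∀ x : FreyV P, σ • x - x ∈ N) ∨
    (∀ A : ValuationSubring (AlgebraicClosure ℚ), A.LiesOverPrime P.p →
      ∀ σ ∈ A.inertiaSubgroupIn ℚ, ∀ x ∈ N, σ • x = x) := by
  have hodd : ¬ Even P.p := Nat.not_even_iff_odd.mpr P.hp_odd
  have hpK : ((P.p : ℕ) : AlgebraicClosure ℚ) ≠ 0 := Nat.cast_ne_zero.mpr P.hp0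
  exact Fermat.Agent.S13.LocP.frey_dichotomy_of P
    (fun W => ⟨finite_torsionBy_of_odd W hodd hpK, card_torsionBy_le_of_odd W hodd hpK⟩)
    (fun W hcard => ⟨Card.torsionXs W P.p,
      Card.mem_torsionXs (torsionCriterion W) hodd hpK,
      (preΨ_eq_prod_of_card W hodd hpK hcard).2⟩)
    N hN hbot htop

end Fermat.Agent.EC
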