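/-
EC-GLUE-LINE (task 142): a proper nonzero submodule of a `ZMod p`-module with at most `p ^ 2`
elements is a line, and so is the quotient.  (Wrappers around helper13's `Lib/ECTors/Card` glue.)
-/
import Fermat.Agent.Lib.ECTors.Card

set_option autoImplicit false

namespace Fermat.Agent.EC

theorem line_span {p : ℕ} [Fact p.Prime] {V : Type*} [AddCommGroup V] [Module (ZMod p) V]
    [Finite V] (hV : Nat.card V ≤ p ^ 2) (N : Submodule (ZMod p) V) (hbot : N ≠ ⊥) (htop : N ≠ ⊤)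
    {e : V} (he : e ∈ N) (he0 : e ≠ 0) (y : V) (hy : y ∈ N) : ∃ k : ZMod p, y = k • e :=
  Fermat.Agent.Lib.ECTors.Card.exists_smul_eq_of_mem hV N hbot htop he he0 hy

theorem coline_span {p : ℕ} [Fact p.Prime] {V : Type*} [AddCommGroup V] [Module (ZMod p) V]
    [Finite V] (hV : Nat.card V ≤ p ^ 2) (N : Submodule (ZMod p) V) (hbot : N ≠ ⊥) (htop : N ≠ ⊤)
    {x : V} (hx : x ∉ N) (y : V) : ∃ k : ZMod p, y - k • x ∈ N :=
  Fermat.Agent.Lib.ECTors.Card.exists_smul_sub_mem hV N hbot htop hx y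

end Fermat.Agent.EC
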