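import Fermat.Agent.EC.Defs
import Fermat.Agent.Lib.GalQbar

/-!
# EC project (S13), GLUE-OPEN: the pointwise stabiliser of `E[p]` is open in `G_ℚ`

* `isOpen_fixing_point` : for any Weierstrass curve `W` over `ℚ` and any point `Q` of `W` over
  `ℚ̄`, the stabiliser of `Q` in `G_ℚ` is open (Krull topology).
* `isOpen_fixing_of_finite` : if `E[p]` of the Frey curve is finite, its pointwise stabiliser is
  open.
-/

set_option autoImplicit false
open WeierstrassCurve WeierstrassCurve.Affine WeierstrassCurve.Affine.Point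
open scoped Pointwise

namespace Fermat.Agent.EC

/-- The set of `σ ∈ G_ℚ` fixing two given elements of `ℚ̄` is open. -/
theorem isOpen_fixing_pair (x y : AlgebraicClosure ℚ) :
    IsOpen {σ : AlgebraicClosure ℚ ≃ₐ[ℚ] AlgebraicClosure ℚ | σ x = x ∧ σ y = y} := by
  have : Algebra.IsAlgebraic ℚ (AlgebraicClosure ℚ) := Fermat.Agent.Lib.GalQbar.isAlgebraic_rat
  let E : IntermediateField ℚ (AlgebraicClosure ℚ) := IntermediateField.adjoin ℚ {x, y}
  have : FiniteDimensional ℚ E :=
    IntermediateField.finiteDimensional_adjoin (S := ({x, y} : Set (AlgebraicClosure ℚ)))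
      fun z _ => (Algebra.IsAlgebraic.isAlgebraic z).isIntegral
  have hE : IsOpen (E.fixingSubgroup : Set (AlgebraicClosure ℚ ≃ₐ[ℚ] AlgebraicClosure ℚ)) :=
    E.fixingSubgroup_isOpen
  have hxE : x ∈ E := IntermediateField.subset_adjoin ℚ _ (by simp)
  have hyE : y ∈ E := IntermediateField.subset_adjoin ℚ _ (by simp)
  rw [isOpen_iff_forall_mem_open]
  rintro σ ⟨hσx, hσy⟩
  refine ⟨σ • (E.fixingSubgroup : Set (AlgebraicClosure ℚ ≃ₐ[ℚ] AlgebraicClosure ℚ)), ?_,
    hE.leftCoset σ, ?_⟩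
  · rintro _ ⟨τ, hτ, rfl⟩
    have hτ' : τ ∈ E.fixingSubgroup := hτ
    rw [IntermediateField.mem_fixingSubgroup_iff] at hτ'
    refine ⟨?_, ?_⟩
    · show σ (τ x) = x
      rw [hτ' x hxE, hσx]
    · show σ (τ y) = y
      rw [hτ' y hyE, hσy]
  · exact ⟨1, E.fixingSubgroup.one_mem, by simp⟩

/-- The stabiliser in `G_ℚ` of a point of a Weierstrass curve over `ℚ̄` is open. -/
theorem isOpen_fixing_point (W : WeierstrassCurve ℚ) (Q : (W⁄(AlgebraicClosure ℚ)).Point) :
    IsOpen {σ : AlgebraicClosure ℚ ≃ₐ[ℚ] AlgebraicClosure ℚ |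
      Point.map (W' := W) σ.toAlgHom Q = Q} := by
  rcases Q with _ | ⟨x, y, h⟩
  · convert isOpen_univ
    ext σ
    simp only [Set.mem_ofPred_eq, Set.mem_univ, iff_true]
    rfl
  · convert isOpen_fixing_pair x y using 1
    ext σ
    simp only [Set.mem_ofPred_eq]
    rw [Point.map_some]
    constructor
    · intro H
      injection H with h1 h2
      exact ⟨h1, h2⟩
    · rintro ⟨h1, h2⟩
      have h1' : σ.toAlgHom x = x := h1
      have h2' : σ.toAlgHom y = y := h2
      simp only [h1', h2']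

/-- If `E[p]` of the Frey curve is finite then its pointwise stabiliser is open in `G_ℚ`. -/
theorem isOpen_fixing_of_finite (P : FreyPackage) (hfin : Finite (FreyV P)) :
    IsOpen {σ : AlgebraicClosure ℚ ≃ₐ[ℚ] AlgebraicClosure ℚ | ∀ x : FreyV P, σ • x = x} := by
  have hset : {σ : AlgebraicClosure ℚ ≃ₐ[ℚ] AlgebraicClosure ℚ | ∀ x : FreyV P, σ • x = x}
      = ⋂ x : FreyV P, {σ : AlgebraicClosure ℚ ≃ₐ[ℚ] AlgebraicClosure ℚ |
          Point.map (W' := P.freyCurve) σ.toAlgHom x.1 = x.1} := by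
    ext σ
    simp only [Set.mem_ofPred_eq, Set.mem_iInter]
    refine forall_congr' fun x => ?_
    rw [← freyV_smul_coe P σ x]
    exact Subtype.ext_iff
  rw [hset]
  exact isOpen_iInter_of_finite fun x => isOpen_fixing_point P.freyCurve x.1

end Fermat.Agent.EC
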