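import Mathlib
import Fermat.Agent.EC.Defs
import Fermat.Agent.S05.Inertia
import Fermat.Agent.Lib.FrobeniusExists

/-!
# EC (S13), task EC-L2-R2: inertia at 2 fixes the roots of `T² + T − c`
-/

set_option autoImplicit false

namespace Fermat.Agent.EC

/-- The inertia group at `2` fixes every root of `T ^ 2 + T - c`, `c ∈ ℤ` (the polynomial is
separable modulo `2`). -/
theorem inertia_two_fixes_root (A : ValuationSubring (AlgebraicClosure ℚ))
    (hA : A.LiesOverPrime 2) (σ : AlgebraicClosure ℚ ≃ₐ[ℚ] AlgebraicClosure ℚ)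
    (hσ : σ ∈ A.inertiaSubgroupIn ℚ) (c : ℤ) (β : AlgebraicClosure ℚ)
    (hβ : β ^ 2 + β = (c : AlgebraicClosure ℚ)) : σ β = β := by
  have h2 : A.valuation (2 : AlgebraicClosure ℚ) < 1 := by
    have h := (A.mem_nonunits_iff).mp hA
    simpa using h
  -- `β` is integral over `ℤ`
  have hint : IsIntegral ℤ β := by
    refine ⟨Polynomial.X ^ 2 + Polynomial.X - Polynomial.C c, ?_, ?_⟩
    · have hdeg : (Polynomial.X - Polynomial.C c : Polynomial ℤ).degree <
          ((Polynomial.X : Polynomial ℤ) ^ 2).degree := by
        rw [Polynomial.degree_X_sub_C, Polynomial.degree_X_pow]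
        norm_num
      have : (Polynomial.X ^ 2 + Polynomial.X - Polynomial.C c : Polynomial ℤ) =
          Polynomial.X ^ 2 + (Polynomial.X - Polynomial.C c) := by ring
      rw [this]
      exact (Polynomial.monic_X_pow 2).add_of_left hdeg
    · rw [Polynomial.eval₂_sub, Polynomial.eval₂_add, Polynomial.eval₂_pow,
        Polynomial.eval₂_X, Polynomial.eval₂_C, hβ, eq_intCast, sub_self]
  have hβle : A.valuation β ≤ 1 := Fermat.Agent.Lib.FrobeniusExists.val_le_one_of_isIntegral _ hint
  have hspec := Fermat.Agent.S05.inertia_spec A σ hσ β hβle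
  -- `σ β` is again a root
  have hσβ : σ β ^ 2 + σ β = (c : AlgebraicClosure ℚ) := by
    have := congrArg σ hβ
    simpa using this
  have hprod : (σ β - β) * (σ β + β + 1) = 0 := by
    have : (σ β - β) * (σ β + β + 1) = (σ β ^ 2 + σ β) - (β ^ 2 + β) := by ring
    rw [this, hσβ, hβ, sub_self]
  rcases mul_eq_zero.mp hprod with h | h
  · exact sub_eq_zero.mp h
  · exfalso
    have hσβ' : σ β - β = -(2 * β + 1) := by
      have : σ β = -β - 1 := by linear_combination h
      rw [this]
      ring
    have h2β : A.valuation (2 * β) < 1 := by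
      rw [map_mul]
      exact mul_lt_one_of_lt_of_le h2 hβle
    have hone : A.valuation (2 * β + 1) = 1 := by
      have := Valuation.map_add_eq_of_lt_right A.valuation
        (x := 2 * β) (y := 1) (by rw [map_one]; exact h2β)
      rw [this, map_one]
    rw [hσβ', Valuation.map_neg, hone] at hspec
    exact lt_irrefl _ hspec

end Fermat.Agent.EC
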