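import Mathlib
import Fermat.Agent.EC.Defs
import Fermat.Agent.S05.Inertia
import Fermat.Agent.Lib.FrobeniusExists

/-!
# EC (S13), task EC-L2-R1: valuations of rational numbers at a valuation subring of `ℚ̄` over `ℓ`
-/

set_option autoImplicit false

namespace Fermat.Agent.EC

open Fermat.Agent.Lib.FrobeniusExists

/-- `v ℓ < 1` for a valuation subring over `ℓ`. -/
theorem val_prime_lt_one {ℓ : ℕ} (A : ValuationSubring (AlgebraicClosure ℚ))
    (hA : A.LiesOverPrime ℓ) : A.valuation (ℓ : AlgebraicClosure ℚ) < 1 :=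
  (A.mem_nonunits_iff).mp hA

/-- `v ℓ ≠ 0`. -/
theorem val_prime_ne_zero {ℓ : ℕ} (hℓ : ℓ.Prime) (A : ValuationSubring (AlgebraicClosure ℚ)) :
    A.valuation (ℓ : AlgebraicClosure ℚ) ≠ 0 := by
  rw [Valuation.ne_zero_iff]
  exact_mod_cast hℓ.ne_zero

/-- The valuation of a nonzero natural number is a natural power of `v ℓ`. -/
theorem nat_val_eq_pow {ℓ : ℕ} (hℓ : ℓ.Prime) (A : ValuationSubring (AlgebraicClosure ℚ))
    (hA : A.LiesOverPrime ℓ) (n : ℕ) (hn : n ≠ 0) :
    ∃ i : ℕ, A.valuation (n : AlgebraicClosure ℚ) = A.valuation (ℓ : AlgebraicClosure ℚ) ^ i := by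
  obtain ⟨e, n', hn', rfl⟩ := Nat.exists_eq_pow_mul_and_not_dvd hn ℓ hℓ.ne_one
  refine ⟨e, ?_⟩
  have h1 : A.valuation ((n' : ℤ) : AlgebraicClosure ℚ) = 1 :=
    val_intCast_eq_one A.valuation hℓ (val_prime_lt_one A hA) (by exact_mod_cast hn')
  rw [Int.cast_natCast] at h1
  rw [Nat.cast_mul, Nat.cast_pow, map_mul, map_pow, h1, mul_one]

/-- The valuation of a nonzero integer is a natural power of `v ℓ`. -/
theorem int_val_eq_pow {ℓ : ℕ} (hℓ : ℓ.Prime) (A : ValuationSubring (AlgebraicClosure ℚ))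
    (hA : A.LiesOverPrime ℓ) (a : ℤ) (ha : a ≠ 0) :
    ∃ i : ℕ, A.valuation (a : AlgebraicClosure ℚ) = A.valuation (ℓ : AlgebraicClosure ℚ) ^ i := by
  obtain ⟨i, hi⟩ := nat_val_eq_pow hℓ A hA a.natAbs (Int.natAbs_ne_zero.mpr ha)
  refine ⟨i, ?_⟩
  rw [← hi]
  rcases Int.natAbs_eq a with h | h
  · conv_lhs => rw [h]
    rw [Int.cast_natCast]
  · conv_lhs => rw [h]
    rw [Int.cast_neg, Valuation.map_neg, Int.cast_natCast]

/-- The valuation of a nonzero rational number is an integer power of `v ℓ`. -/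
theorem rat_val_eq_zpow {ℓ : ℕ} (hℓ : ℓ.Prime) (A : ValuationSubring (AlgebraicClosure ℚ))
    (hA : A.LiesOverPrime ℓ) (q : ℚ) (hq : q ≠ 0) :
    ∃ m : ℤ, A.valuation (q : AlgebraicClosure ℚ) = A.valuation (ℓ : AlgebraicClosure ℚ) ^ m := by
  obtain ⟨i, hi⟩ := int_val_eq_pow hℓ A hA q.num (Rat.num_ne_zero.mpr hq)
  obtain ⟨j, hj⟩ := nat_val_eq_pow hℓ A hA q.den q.den_ne_zero
  refine ⟨(i : ℤ) - j, ?_⟩
  rw [Rat.cast_def, map_div₀, hi, hj, zpow_sub₀ (val_prime_ne_zero hℓ A), zpow_natCast,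
    zpow_natCast]

/-- `m ↦ (v ℓ)^m` is injective. -/
theorem zpow_val_injective {ℓ : ℕ} (hℓ : ℓ.Prime) (A : ValuationSubring (AlgebraicClosure ℚ))
    (hA : A.LiesOverPrime ℓ) {m n : ℤ}
    (h : A.valuation (ℓ : AlgebraicClosure ℚ) ^ m = A.valuation (ℓ : AlgebraicClosure ℚ) ^ n) :
    m = n :=
  zpow_right_injective₀ (zero_lt_iff.mpr (val_prime_ne_zero hℓ A)) (val_prime_lt_one A hA).ne h

/-- An even integer has valuation `< 1` at a valuation subring over `2`. -/
theorem int_val_lt_one_of_even (A : ValuationSubring (AlgebraicClosure ℚ))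
    (hA : A.LiesOverPrime 2) {a : ℤ} (ha : (2 : ℤ) ∣ a) :
    A.valuation (a : AlgebraicClosure ℚ) < 1 := by
  obtain ⟨a', rfl⟩ := ha
  have h2 : A.valuation (2 : AlgebraicClosure ℚ) < 1 := by
    have h := val_prime_lt_one A hA
    simpa using h
  have ha' : A.valuation ((a' : ℤ) : AlgebraicClosure ℚ) ≤ 1 := by
    rw [ValuationSubring.valuation_le_one_iff]
    exact intCast_mem A a'
  rw [Int.cast_mul, map_mul, Int.cast_ofNat]
  exact mul_lt_one_of_lt_of_le h2 ha'

/-- An odd integer has valuation `1` at a valuation subring over `2`. -/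
theorem int_val_eq_one_of_odd (A : ValuationSubring (AlgebraicClosure ℚ))
    (hA : A.LiesOverPrime 2) {a : ℤ} (ha : ¬ (2 : ℤ) ∣ a) :
    A.valuation (a : AlgebraicClosure ℚ) = 1 :=
  val_intCast_eq_one A.valuation Nat.prime_two (val_prime_lt_one A hA) (by exact_mod_cast ha)

/-- A `2`-integral rational number is `≡ 0` or `≡ 1` modulo the maximal ideal. -/
theorem rat_val_two_cases (A : ValuationSubring (AlgebraicClosure ℚ)) (hA : A.LiesOverPrime 2)
    (q : ℚ) (hq : A.valuation (q : AlgebraicClosure ℚ) ≤ 1) :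
    A.valuation (q : AlgebraicClosure ℚ) < 1 ∨ A.valuation ((q : AlgebraicClosure ℚ) - 1) < 1 := by
  have hden0 : ((q.den : ℤ) : AlgebraicClosure ℚ) ≠ 0 := by
    exact_mod_cast q.den_ne_zero
  have hqdef : (q : AlgebraicClosure ℚ) =
      ((q.num : ℤ) : AlgebraicClosure ℚ) / ((q.den : ℤ) : AlgebraicClosure ℚ) := by
    rw [Rat.cast_def, Int.cast_natCast]
  -- the denominator is odd
  have hbodd : ¬ (2 : ℤ) ∣ (q.den : ℤ) := by
    intro hb
    have haodd : ¬ (2 : ℤ) ∣ q.num := by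
      intro ha
      have h2 : (2 : ℕ) ∣ q.num.natAbs := by
        have := Int.natAbs_dvd_natAbs.mpr ha
        simpa using this
      have h3 : (2 : ℕ) ∣ q.den := by exact_mod_cast hb
      have h4 := Nat.dvd_gcd h2 h3
      rw [q.reduced] at h4
      omega
    have hva := int_val_eq_one_of_odd A hA haodd
    have hvb := int_val_lt_one_of_even A hA hb
    rw [hqdef, map_div₀, hva] at hq
    have hvb0 : A.valuation ((q.den : ℤ) : AlgebraicClosure ℚ) ≠ 0 :=
      (Valuation.ne_zero_iff _).mpr hden0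
    have : (1 : A.ValueGroup) < 1 / A.valuation ((q.den : ℤ) : AlgebraicClosure ℚ) := by
      rw [one_div]
      exact (one_lt_inv₀ (zero_lt_iff.mpr hvb0)).mpr hvb
    exact absurd hq (not_le.mpr this)
  have hvb := int_val_eq_one_of_odd A hA hbodd
  by_cases ha : (2 : ℤ) ∣ q.num
  · left
    rw [hqdef, map_div₀, hvb, div_one]
    exact int_val_lt_one_of_even A hA ha
  · right
    have hsub : (q : AlgebraicClosure ℚ) - 1 =
        (((q.num - q.den : ℤ)) : AlgebraicClosure ℚ) / ((q.den : ℤ) : AlgebraicClosure ℚ) := by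
      rw [hqdef, Int.cast_sub]
      field_simp
    have heven : (2 : ℤ) ∣ q.num - q.den := by
      have h1 : q.num % 2 = 1 := by omega
      have h2 : (q.den : ℤ) % 2 = 1 := by omega
      omega
    rw [hsub, map_div₀, hvb, div_one]
    exact int_val_lt_one_of_even A hA heven

end Fermat.Agent.EC
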