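import Mathlib

/-!
# EC (S13), task EC-L2-R3: value-group arithmetic for NO-TORS
-/

set_option autoImplicit false

namespace Fermat.Agent.EC

/-- If `(t^m)^p = (t^n)^(2k)` with `0 < t < 1` and `p ∤ 2n`, then `t^m` is an even power of
`t^n`. -/
theorem zpow_torsion_arith {Γ₀ : Type*} [LinearOrderedCommGroupWithZero Γ₀] (t : Γ₀)
    (ht0 : t ≠ 0) (ht : t < 1) {p : ℕ} (hp : p.Prime) (n m k : ℤ) (hn : ¬ (p : ℤ) ∣ 2 * n)
    (h : (t ^ m) ^ p = (t ^ n) ^ (2 * k)) : ∃ j : ℤ, t ^ m = (t ^ n) ^ (2 * j) := by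
  have ht0' : 0 < t := zero_lt_iff.mpr ht0
  have hinj := zpow_right_injective₀ ht0' ht.ne
  have h1 : t ^ (m * (p : ℤ)) = t ^ (n * (2 * k)) := by
    rw [zpow_mul, zpow_mul, zpow_natCast]
    exact h
  have h2 : m * (p : ℤ) = n * (2 * k) := hinj h1
  have hpp : Prime (p : ℤ) := Nat.prime_iff_prime_int.mp hp
  have hdvd : (p : ℤ) ∣ (2 * n) * k := ⟨m, by rw [mul_comm (p : ℤ) m, h2]; ring⟩
  obtain ⟨j, hj⟩ : (p : ℤ) ∣ k := (hpp.dvd_or_dvd hdvd).resolve_left hn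
  refine ⟨j, ?_⟩
  have hp0 : (p : ℤ) ≠ 0 := by exact_mod_cast hp.ne_zero
  have h3 : m = n * (2 * j) := by
    apply mul_right_cancel₀ hp0
    rw [h2, hj]
    ring
  rw [h3, zpow_mul]

end Fermat.Agent.EC
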